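import Fermat.Agent.Mazur.Large.Line
import Fermat.Agent.EC.AtP.FreyTwoAdic
import Fermat.Agent.EC.Multiplicative.Int
import Fermat.Agent.EC.Multiplicative.Count

/-!
# The cyclotomic line at `p` and at the small primes
-/

set_option autoImplicit false

namespace Fermat.Agent.Mazur.Large

open WeierstrassCurve Fermat.Agent.Arith Fermat.Agent.EC.AtP Fermat.Agent.EC.Reduction
open scoped WeierstrassCurve.Affine Pointwise

variable {W : WeierstrassCurve ℤ} [(W.map (Int.castRingHom ℚ)).IsElliptic] {p : ℕ} [Fact p.Prime]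
  {T : PointQBar W}

omit [(W.map (Int.castRingHom ℚ)).IsElliptic] in
theorem nsmul_smul (σ : GQ) (k : ℕ) (R : PointQBar W) : σ • (k • R) = k • (σ • R) :=
  map_nsmul (Affine.Point.map (σ : GQ).toAlgHom) k R

theorem eq_one_nsmul {G : Type*} [AddCommGroup G] {x : G} {m : ℕ} (hx : p • x = 0)
    (hm : (m : ZMod p) = 1) : m • x = x := by
  have hp : p.Prime := Fact.out
  have h1 : m % p = 1 := by
    have : (m : ZMod p) = ((1 : ℕ) : ZMod p) := by rw [hm, Nat.cast_one]
    rw [ZMod.natCast_eq_natCast_iff', Nat.mod_eq_of_lt hp.one_lt] at this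
    exact this
  rw [nsmul_eq_mod_nsmul m hx, h1, one_nsmul]

omit [(W.map (Int.castRingHom ℚ)).IsElliptic] in
/-- At a place over `p` the line lies in the identity component, as soon as inertia moves points
within their components. -/
theorem inE0_at_p (h : IsCyclotomicLine W p T) (hp2 : 2 < p)
    (hcomp : InertiaPreservesComponent W) {A : ValuationSubring QBar} (hA : A.LiesOverPrime p) :
    InE0 A (redCurve W A) T := by
  classical
  have hp : p.Prime := Fact.out
  obtain ⟨σ, hσ, hne⟩ := exists_inertia_cyc_ne_one p hp2 hA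
  have hE := (reducesTo_qbar (W := W) A).mem_E0.mpr (hcomp p hp A hA σ hσ T)
  set χ : ZMod p := ((cyclotomicHom p σ : (ZMod p)ˣ) : ZMod p) with hχ
  set e : ℕ := χ.val + (p - 1) with he
  have hsub : σ • T - T = e • T := by
    rw [he, add_nsmul, h.smul_eq, ← hχ, sub_eq_add_neg]
    congr 1
    refine (eq_neg_of_add_eq_zero_left ?_).symm
    rw [← succ_nsmul, Nat.sub_add_cancel hp.one_lt.le, h.nsmul_eq]
  have hχ1 : χ - 1 ≠ 0 := by
    refine sub_ne_zero.mpr fun h1 => hne (Units.ext ?_)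
    rw [Units.val_one]; exact h1
  have he' : (e : ZMod p) = χ - 1 := by
    rw [he, Nat.cast_add, ZMod.natCast_zmod_val, Nat.cast_sub hp.one_lt.le, ZMod.natCast_self,
      Nat.cast_one, zero_sub, sub_eq_add_neg]
  rw [hsub] at hE
  have hmul := (reducesTo_qbar (W := W) A).E0.nsmul_mem hE ((χ - 1)⁻¹).val
  have heq : ((χ - 1)⁻¹).val • (e • T) = T := by
    rw [← mul_nsmul]
    refine eq_one_nsmul (p := p) h.nsmul_eq ?_
    rw [Nat.cast_mul, he', ZMod.natCast_zmod_val, mul_inv_cancel₀ hχ1]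
  rw [heq] at hmul
  exact (reducesTo_qbar (W := W) A).mem_E0.mp hmul

variable {A : ValuationSubring QBar} {q : ℕ}

omit [(W.map (Int.castRingHom ℚ)).IsElliptic] in
/-- A nonzero `p`-torsion point with nonsingular reduction at a small prime `q` is not fixed by
Frobenius: the reduced curve has at most `q ^ 2 < p - 1` rational affine points. -/
theorem smul_ne_self_of_small (hA : A.LiesOverPrime q) (hq : q.Prime) (hqp : q ≠ p)
    (hsmall : q ^ 2 + 1 < p) {σ : GQ} (hσ : A.IsFrobeniusAt σ q) {R : PointQBar W}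
    (hR0 : R ≠ 0) (hpR : p • R = 0) (hRE : InE0 A (redCurve W A) R) : σ • R ≠ R := by
  classical
  intro hfix
  have hp : p.Prime := Fact.out
  have h := reducesTo_qbar (W := W) A
  obtain ⟨hs, hf⟩ := res_frobenius hσ
  set S : Finset (IsLocalRing.ResidueField A) :=
    (Polynomial.X ^ q - Polynomial.X : Polynomial (IsLocalRing.ResidueField A)).roots.toFinset
    with hS
  have hS' : S.card ≤ q := (Multiset.toFinset_card_le _).trans
    ((Polynomial.card_roots' _).trans (FiniteField.X_pow_card_sub_X_natDegree_eq _ hq.one_lt).le)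
  have hcoord : ∀ k : Fin (p - 1), ∃ c : IsLocalRing.ResidueField A × IsLocalRing.ResidueField A,
      c ∈ S ×ˢ S ∧ ∃ (x y : QBar) (hn : _) ,
        (k.1 + 1) • R = Affine.Point.some x y hn ∧ x ∈ A ∧
        (redCurve W A).Nonsingular (res A x) (res A y) ∧ c = (res A x, res A y) := by
    intro k
    have hne : (k.1 + 1) • R ≠ 0 :=
      nsmul_ne_zero_of_prime hp hpR hR0 (Nat.succ_pos _) (by have := k.2; omega)
    have hk : InE0 A (redCurve W A) ((k.1 + 1) • R) :=
      h.mem_E0.mp (h.E0.nsmul_mem (h.mem_E0.mpr hRE) _)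
    match he : (k.1 + 1) • R with
    | .zero => exact absurd he hne
    | .some x y hn =>
      have hx : x ∈ A := by
        by_contra hx
        refine hne (e1TorsionFree p hp q hq hqp A hA _ ?_ ?_)
        · rw [he]; exact hx
        · rw [← mul_nsmul, mul_comm, mul_nsmul, hpR, nsmul_zero]
      have hns : (redCurve W A).Nonsingular (res A x) (res A y) :=
        ((inE0_some hn).mp (he ▸ hk)).resolve_left (not_not_intro hx)
      have hfix' : σ • ((k.1 + 1) • R) = (k.1 + 1) • R := by rw [nsmul_smul, hfix]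
      rw [he] at hfix'
      obtain ⟨h', e⟩ := smul_some (σ := σ) hn
      obtain ⟨ex, ey⟩ := (Affine.Point.some.injEq ..).mp (e.symm.trans hfix')
      have hmem : ∀ z ∈ A, σ z = z → res A z ∈ S := by
        intro z hz hzfix
        rw [hS, Multiset.mem_toFinset, Polynomial.mem_roots
          (FiniteField.X_pow_card_sub_X_ne_zero _ hq.one_lt)]
        have := hf z hz
        rw [hzfix] at this
        simp [Polynomial.IsRoot, ← this]
      have hy : y ∈ A := h.y_mem hn.1 hx
      exact ⟨(res A x, res A y), Finset.mem_product.mpr ⟨hmem x hx ex, hmem y hy ey⟩,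
        x, y, hn, rfl, hx, hns, rfl⟩
  choose f hfS hfc using hcoord
  have hinj : Function.Injective f := by
    intro i j hij
    obtain ⟨x, y, hn, ei, hx, hns, hi⟩ := hfc i
    obtain ⟨x', y', hn', ej, hx', hns', hj⟩ := hfc j
    rw [hi, hj, Prod.mk.injEq] at hij
    have hmemE : ∀ m : ℕ, InE0 A (redCurve W A) (m • R) := fun m =>
      h.mem_E0.mp (h.E0.nsmul_mem (h.mem_E0.mpr hRE) m)
    have heq : redFun A (redCurve W A) ((i.1 + 1) • R) = redFun A (redCurve W A) ((j.1 + 1) • R) := by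
      rw [ei, ej, redFun_some hn hx hns, redFun_some hn' hx' hns']
      simp only [hij.1, hij.2]
    have hz := e1TorsionFree p hp q hq hqp A hA _
      (h.mem_E1.mp (h.sub_mem_E1 (hmemE _) (hmemE _) heq))
      (by rw [nsmul_sub, ← mul_nsmul, ← mul_nsmul, mul_comm, mul_nsmul, hpR, nsmul_zero,
        mul_comm, mul_nsmul, hpR, nsmul_zero, sub_zero])
    rw [sub_eq_zero] at hz
    have hord := addOrderOf_eq_prime hpR hR0
    have hmod := (nsmul_eq_nsmul_iff_modEq).mp hz
    rw [hord] at hmod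
    have hi2 := i.2
    have hj2 := j.2
    have := Nat.ModEq.eq_of_lt_of_lt hmod (by omega) (by omega)
    exact Fin.ext (by omega)
  have hcard := Finset.card_le_card_of_injOn (s := (Finset.univ : Finset (Fin (p - 1)))) f
    (fun k _ => hfS k) hinj.injOn
  rw [Finset.card_univ, Fintype.card_fin, Finset.card_product] at hcard
  have : S.card * S.card ≤ q ^ 2 := by rw [sq]; exact Nat.mul_le_mul hS' hS'
  omega

/-- At a multiplicative place some nonzero `p`-torsion point has nonsingular reduction. -/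
theorem exists_inE0_torsion (hA : A.LiesOverPrime q) (hq : q.Prime) (hΔ0 : W.Δ ≠ 0)
    (hΔ : (q : ℤ) ∣ W.Δ) (hc₄ : ¬ (q : ℤ) ∣ W.c₄) :
    ∃ R : PointQBar W, R ≠ 0 ∧ p • R = 0 ∧ InE0 A (redCurve W A) R := by
  classical
  have hp : p.Prime := Fact.out
  obtain ⟨N, -⟩ := EC.Multiplicative.exists_node_int hA hq hΔ0 hΔ hc₄
  have h := (N.le_natCard_e0Torsion hp.ne_zero (EC.Torsion.natCard_torsionBy_algebraicClosureRat
    (W.map (Int.castRingHom ℚ)) hp.ne_zero)).trans_lt' hp.one_lt
  have : Finite (N.e0Torsion p) := Nat.finite_of_card_ne_zero (by omega)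
  have := Finite.one_lt_card_iff_nontrivial.mp h
  obtain ⟨⟨R, hR⟩, hR0⟩ := exists_ne (0 : N.e0Torsion p)
  exact ⟨R, fun h0 => hR0 (Subtype.ext h0), (N.mem_e0Torsion.mp hR).2, (N.mem_e0Torsion.mp hR).1⟩

/-- At a small prime of multiplicative reduction the line lies in the identity component. -/
theorem inE0_small (h : IsCyclotomicLine W p T) (hΔ0 : W.Δ ≠ 0) (hA : A.LiesOverPrime q)
    (hq : q.Prime) (hqp : q ≠ p) (hsmall : q ^ 2 + 1 < p) (hΔ : (q : ℤ) ∣ W.Δ)
    (hc₄ : ¬ (q : ℤ) ∣ W.c₄) :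
    InE0 A (redCurve W A) T := by
  classical
  have hp : p.Prime := Fact.out
  by_contra hT
  obtain ⟨R, hR0, hpR, hRE⟩ := exists_inE0_torsion (p := p) hA hq hΔ0 hΔ hc₄
  obtain ⟨σ, hσ⟩ := exists_isFrobeniusAt hA hq
  have hr := reducesTo_qbar (W := W) A
  obtain ⟨hs, hf⟩ := res_frobenius hσ
  obtain ⟨k, hk⟩ := h.cofix σ R hpR
  have hkE : k • T ∈ hr.E0 := by
    have h1 : σ • R ∈ hr.E0 := hr.mem_E0.mpr
      ((hr.inE0_smul_iff (φ := (residualFrobenius hA hq).toRingHom) hs hf).mpr hRE)
    rw [hk] at h1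
    simpa using hr.E0.sub_mem h1 (hr.mem_E0.mpr hRE)
  have hk0 : (k : ZMod p) = 0 := by
    by_contra hk0
    refine hT (hr.mem_E0.mp ?_)
    have := hr.E0.nsmul_mem hkE ((k : ZMod p)⁻¹).val
    rw [← mul_nsmul] at this
    rwa [eq_one_nsmul (p := p) h.nsmul_eq
      (by rw [Nat.cast_mul, ZMod.natCast_zmod_val, mul_inv_cancel₀ hk0])] at this
  refine smul_ne_self_of_small hA hq hqp hsmall hσ hR0 hpR hRE ?_
  rw [hk, h.nsmul_eq_zero_iff.mpr ((ZMod.natCast_eq_zero_iff k p).mp hk0), add_zero]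

end Fermat.Agent.Mazur.Large
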